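import Fermat.Agent.MLT.Tate.Generic
import Fermat.Agent.EC.Torsion
import Fermat.Prelude.Def_FLTPrelim_Modularity
import Fermat.Prelude.Def_GaloisRep_ResidualEquiv

/-!
# The Tate module of an elliptic curve over `ℚ`

`curveTate W p : GaloisRepAdic ℤ_[p]` with projections `curveTateProj W p n` to `E[p ^ n](ℚ̄)`.
The underlying module is `Fin 2 → ℤ_[p]`.
-/

set_option autoImplicit false

noncomputable section

namespace FermatLib.MLT.Tate

open WeierstrassCurve
open scoped WeierstrassCurve.Affine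

local notation "Qbar" => AlgebraicClosure ℚ
local notation "Γℚ" => (AlgebraicClosure ℚ ≃ₐ[ℚ] AlgebraicClosure ℚ)

variable (W : WeierstrassCurve ℚ) [W.IsElliptic] (p : ℕ) [Fact p.Prime]

theorem rankTwoTorsion_curve : RankTwoTorsion p (W⁄Qbar).Point where
  card n := by
    have hn : ((p ^ n : ℕ) : Qbar) ≠ 0 :=
      Nat.cast_ne_zero.mpr (pow_ne_zero n (Fact.out : p.Prime).ne_zero)
    rw [pow_mul, ← FermatLib.EC.natCard_torsionBy_baseChange W hn]
    exact Nat.card_congr (Equiv.subtypeEquivRight fun x => by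
      rw [Submodule.mem_torsionBy_iff, natCast_zsmul])
  finite_level n := by
    obtain ⟨L, hL, hfix⟩ :=
      FermatLib.EC.exists_finiteDimensional_smul_eq W (pow_ne_zero n (Fact.out : p.Prime).ne_zero)
    exact ⟨L, hL, fun σ hσ x hx => hfix σ hσ x (by rwa [natCast_zsmul])⟩

/-- The `p`-adic Tate module of `E`. -/
def curveTate : GaloisRepAdic ℤ_[p] := tateAdic (rankTwoTorsion_curve W p)

/-- Projection `T_p E → E[p ^ n]`. -/
def curveTateProj (n : ℕ) : (curveTate W p).V →+ (W⁄Qbar).Point :=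
  tateProj (rankTwoTorsion_curve W p) n

lemma pow_smul_curveTateProj (n : ℕ) (v : (curveTate W p).V) :
    p ^ n • curveTateProj W p n v = 0 :=
  pow_smul_tateProj _ n v

lemma smul_curveTateProj_succ (n : ℕ) (v : (curveTate W p).V) :
    p • curveTateProj W p (n + 1) v = curveTateProj W p n v :=
  smul_tateProj_succ _ n v

lemma exists_curveTateProj_eq {n : ℕ} {x : (W⁄Qbar).Point} (hx : p ^ n • x = 0) :
    ∃ v, curveTateProj W p n v = x :=
  exists_tateProj_eq _ hx

lemma curveTateProj_eq_zero_iff {n : ℕ} {v : (curveTate W p).V} :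
    curveTateProj W p n v = 0 ↔
      v ∈ IsLocalRing.maximalIdeal ℤ_[p] ^ n • (⊤ : Submodule ℤ_[p] (curveTate W p).V) :=
  tateProj_eq_zero_iff_mem _

lemma exists_curveTateProj_forall_eq {x : ℕ → (W⁄Qbar).Point} (h0 : ∀ n, p ^ n • x n = 0)
    (hx : ∀ n, p • x (n + 1) = x n) : ∃ v, ∀ n, curveTateProj W p n v = x n :=
  exists_tateProj_forall_eq _ h0 hx

lemma curveTateProj_smul_of_toZModPow_eq {n : ℕ} {c : ℤ_[p]} {a : ℤ}
    (hca : (a : ZMod (p ^ n)) = PadicInt.toZModPow n c) (v : (curveTate W p).V) :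
    curveTateProj W p n (c • v) = a • curveTateProj W p n v :=
  tateProj_smul_of_toZModPow_eq _ hca v

lemma curveTateProj_rho (σ : Γℚ) (n : ℕ) (v : (curveTate W p).V) :
    curveTateProj W p n ((curveTate W p).ρ σ v) = σ • curveTateProj W p n v :=
  tateProj_rho _ σ n v

lemma curveTate_end_ext {f g : Module.End ℤ_[p] (curveTate W p).V}
    (h : ∀ n v, curveTateProj W p n (f v) = curveTateProj W p n (g v)) : f = g :=
  end_ext (rankTwoTorsion_curve W p) h

end FermatLib.MLT.Tate
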