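import Fermat.Agent.MLT.Tate.Det
import Fermat.Agent.Galois.RepAdic
import Fermat.Agent.EC.FrobeniusRelation
import Fermat.Agent.EC.RedBridge

/-!
# Frobenius and inertia at good primes on the Tate module
-/

set_option autoImplicit false

noncomputable section

namespace FermatLib.MLT.Tate

open WeierstrassCurve Polynomial
open scoped WeierstrassCurve.Affine

local notation "Qbar" => AlgebraicClosure ℚ
local notation "Γℚ" => (AlgebraicClosure ℚ ≃ₐ[ℚ] AlgebraicClosure ℚ)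

/-- A quadratic relation with the right constant term determines the characteristic polynomial. -/
lemma charpoly_eq_of_quadratic {A : Type} [CommRing A] [IsLocalRing A] (ρ : GaloisRepAdic A)
    (σ : Γℚ) (a d : A) (hd : LinearMap.det (ρ.ρ σ) = d)
    (h : ρ.ρ σ * ρ.ρ σ - a • ρ.ρ σ + d • 1 = 0) :
    LinearMap.charpoly (ρ.ρ σ) = X ^ 2 - C a * X + C d := by
  have hch := FermatLib.Galois.adic_charpoly_eq ρ σ
  have h0 := LinearMap.aeval_self_charpoly (ρ.ρ σ)
  rw [hch, hd] at h0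
  simp only [map_add, map_sub, map_mul, aeval_C, aeval_X, map_pow, Algebra.algebraMap_eq_smul_one,
    smul_mul_assoc, one_mul] at h0
  have h1 : (ρ.trace σ - a) • ρ.ρ σ = 0 := by
    rw [sub_smul]
    linear_combination (norm := module) h - h0 + (pow_two (ρ.ρ σ))
  have h2 : (ρ.trace σ - a) • (1 : Module.End A ρ.V) = 0 := by
    have h3 : ρ.ρ σ * ρ.ρ σ⁻¹ = 1 := by rw [← map_mul, mul_inv_cancel, map_one]
    rw [← h3, ← smul_mul_assoc, h1, zero_mul]
  let b := Module.finBasisOfFinrankEq A ρ.V ρ.finrank_eq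
  have h4 := congrArg (fun v => b.repr v 0) (LinearMap.congr_fun h2 (b 0))
  simp at h4
  rw [hch, hd, sub_eq_zero.mp h4]

variable (W : WeierstrassCurve ℤ) [(W.map (Int.castRingHom ℚ)).IsElliptic] (p : ℕ) [Fact p.Prime]

/-- `σ² - a_ℓ σ + ℓ = 0` on `T_p E`. -/
theorem curveTate_frobenius_relation {ℓ : ℕ} (hℓ : ℓ.Prime) (hℓp : ℓ ≠ p)
    (hgood : W.IsGoodPrimeFor ℓ) {A : ValuationSubring Qbar} (hA : A.LiesOverPrime ℓ) {σ : Γℚ}
    (hσ : A.IsFrobeniusAt σ ℓ) :
    (curveTate (W.map (Int.castRingHom ℚ)) p).ρ σ * (curveTate (W.map (Int.castRingHom ℚ)) p).ρ σ -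
        ((W.apOfModel ℓ : ℤ) : ℤ_[p]) • (curveTate (W.map (Int.castRingHom ℚ)) p).ρ σ +
        (ℓ : ℤ_[p]) • 1 = 0 := by
  refine curveTate_end_ext _ p fun n v => ?_
  have hndvd : ¬ ℓ ∣ p ^ n := fun hd =>
    hℓp ((Nat.prime_dvd_prime_iff_eq hℓ Fact.out).mp (hℓ.dvd_of_dvd_pow hd))
  have hrel := FermatLib.EC.frobenius_relation hℓ hgood hA hσ hndvd
    (curveTateProj (W.map (Int.castRingHom ℚ)) p n v) (pow_smul_curveTateProj _ p n v)
  rw [LinearMap.zero_apply, map_zero, LinearMap.add_apply, LinearMap.sub_apply,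
    LinearMap.smul_apply, LinearMap.smul_apply, Module.End.mul_apply, Module.End.one_apply,
    map_add, map_sub, Int.cast_smul_eq_zsmul, map_zsmul, ← Int.cast_natCast (R := ℤ_[p]) ℓ,
    Int.cast_smul_eq_zsmul, map_zsmul, curveTateProj_rho, curveTateProj_rho]
  exact hrel

/-- At a good prime `ℓ ≠ p`, Frobenius has characteristic polynomial `X² - a_ℓ X + ℓ`. -/
theorem charpoly_curveTate_frobenius {ℓ : ℕ} (hℓ : ℓ.Prime) (hℓp : ℓ ≠ p)
    (hgood : W.IsGoodPrimeFor ℓ) {A : ValuationSubring Qbar} (hA : A.LiesOverPrime ℓ) {σ : Γℚ}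
    (hσ : A.IsFrobeniusAt σ ℓ) :
    LinearMap.charpoly ((curveTate (W.map (Int.castRingHom ℚ)) p).ρ σ) =
      X ^ 2 - C ((W.apOfModel ℓ : ℤ) : ℤ_[p]) * X + C (ℓ : ℤ_[p]) :=
  charpoly_eq_of_quadratic _ σ _ _
    ((det_curveTate _ p σ).trans (FermatLib.Galois.Attach.cycloChar_frobenius p hℓ hℓp hA hσ))
    (curveTate_frobenius_relation W p hℓ hℓp hgood hA hσ)

theorem trace_curveTate_frobenius {ℓ : ℕ} (hℓ : ℓ.Prime) (hℓp : ℓ ≠ p)
    (hgood : W.IsGoodPrimeFor ℓ) {A : ValuationSubring Qbar} (hA : A.LiesOverPrime ℓ) {σ : Γℚ}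
    (hσ : A.IsFrobeniusAt σ ℓ) :
    (curveTate (W.map (Int.castRingHom ℚ)) p).trace σ = ((W.apOfModel ℓ : ℤ) : ℤ_[p]) := by
  have h := charpoly_curveTate_frobenius W p hℓ hℓp hgood hA hσ
  rw [FermatLib.Galois.adic_charpoly_eq] at h
  simpa using congrArg (fun q => Polynomial.coeff q 1) h

/-- `T_p E` is unramified at good primes away from `p`. -/
theorem isUnramifiedAt_curveTate {q : ℕ} (hq : q.Prime) (hqp : q ≠ p)
    (hgood : W.IsGoodPrimeFor q) :
    (curveTate (W.map (Int.castRingHom ℚ)) p).IsUnramifiedAt q := by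
  refine tateAdic_isUnramifiedAt _ fun A hA σ hσ n x hx => ?_
  refine FermatLib.EC.smul_eq_self_of_good (FermatLib.EC.integralAt_intCurve W A) ?_
    (FermatLib.EC.fixesResidues_of_mem_inertia hσ) ?_ hx
  · rw [FermatLib.EC.res_Δ_intCurve, FermatLib.EC.res_intCast_ne_zero_iff A hq hA]
    exact hgood
  · exact FermatLib.EC.res_natCast_ne_zero A hq hA fun hd =>
      hqp ((Nat.prime_dvd_prime_iff_eq hq Fact.out).mp (hq.dvd_of_dvd_pow hd))

end FermatLib.MLT.Tate
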