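import Fermat.Agent.MLT.Tate.Curve
import Fermat.Prelude.Def_GaloisRep_ResidualEquiv
import Mathlib.RingTheory.TensorProduct.Free

/-!
# The residual representation of the Tate module is `E[p]`
-/

set_option autoImplicit false

noncomputable section

namespace FermatLib.MLT.Tate

open WeierstrassCurve
open scoped WeierstrassCurve.Affine TensorProduct

local notation "Qbar" => AlgebraicClosure ℚ
local notation "Γℚ" => (AlgebraicClosure ℚ ≃ₐ[ℚ] AlgebraicClosure ℚ)

variable (W : WeierstrassCurve ℚ) [W.IsElliptic] (p : ℕ) [Fact p.Prime]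

/-- Reduction to `E[p]`, linear over `PadicInt.toZMod`. -/
def curveTateToTorsion :
    (curveTate W p).V →ₛₗ[(PadicInt.toZMod : ℤ_[p] →+* ZMod p)]
      Submodule.torsionBy ℤ (W⁄Qbar).Point (p : ℕ) where
  toFun v := ⟨curveTateProj W p 1 v, by
    rw [Submodule.mem_torsionBy_iff, natCast_zsmul]
    simpa using pow_smul_curveTateProj W p 1 v⟩
  map_add' v w := Subtype.ext (map_add _ v w)
  map_smul' c v := by
    obtain ⟨a, ha⟩ := ZMod.intCast_surjective (PadicInt.toZMod c)
    rw [← ha, Int.cast_smul_eq_zsmul]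
    refine Subtype.ext ?_
    show curveTateProj W p 1 (c • v) = a • curveTateProj W p 1 v
    refine curveTateProj_smul_of_toZModPow_eq W p ?_ v
    rw [← map_intCast (PadicInt.toZModPow 1), ← sub_eq_zero, ← map_sub, ← RingHom.mem_ker,
      PadicInt.ker_toZModPow, pow_one, ← PadicInt.maximalIdeal_eq_span_p, ← PadicInt.ker_toZMod,
      RingHom.mem_ker, map_sub, map_intCast, ha, sub_self]

lemma curveTateToTorsion_rho (σ : Γℚ) (v : (curveTate W p).V) :
    curveTateToTorsion W p ((curveTate W p).ρ σ v) = σ • curveTateToTorsion W p v :=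
  Subtype.ext (curveTateProj_rho W p σ 1 v)

lemma curveTateToTorsion_surjective : Function.Surjective (curveTateToTorsion W p) := fun x => by
  obtain ⟨v, hv⟩ := exists_curveTateProj_eq W p (n := 1) (x := x.1) (by
    rw [pow_one, ← natCast_zsmul]; exact (Submodule.mem_torsionBy_iff _ _).mp x.2)
  exact ⟨v, Subtype.ext hv⟩

/-- The residual representation of `T_p E` is `E[p]`. -/
theorem residual_curveTate_equiv
    (hcard : Nat.card (Submodule.torsionBy ℤ (W⁄Qbar).Point p) = p ^ 2)
    (hker : GaloisFactorsThroughFiniteLevel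
      (WeierstrassCurve.Affine.Point.galoisRepModuleEnd (K := Qbar) ℚ W p)) :
    Nonempty (ResidualGaloisRep.Equiv
      ((curveTate W p).residual.baseChangeAlong (PadicInt.residueField (p := p)).toRingHom)
      (W.residualGaloisRepOf p hcard hker)) := by
  classical
  let k := IsLocalRing.ResidueField ℤ_[p]
  let ψ : k →+* ZMod p := (PadicInt.residueField (p := p)).toRingHom
  letI : Algebra k (ZMod p) := ψ.toAlgebra
  have hψ : ∀ c : ℤ_[p], ψ (IsLocalRing.residue ℤ_[p] c) = PadicInt.toZMod c := fun c => by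
    rw [PadicInt.toZMod_eq_residueField_comp_residue]; rfl
  let bA : Module.Basis (Fin 2) ℤ_[p] (curveTate W p).V := Pi.basisFun ℤ_[p] (Fin 2)
  let bk := Algebra.TensorProduct.basis k bA
  let bp := Algebra.TensorProduct.basis (ZMod p) bk
  let T := Submodule.torsionBy ℤ (W⁄Qbar).Point (p : ℕ)
  -- the images of the basis
  let t : Fin 2 → T := fun i => curveTateToTorsion W p (bA i)
  have hspan : ∀ x : T, ∃ c : Fin 2 → ZMod p, ∑ i, c i • t i = x := fun x => by
    obtain ⟨v, rfl⟩ := curveTateToTorsion_surjective W p x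
    refine ⟨fun i => PadicInt.toZMod (bA.repr v i), ?_⟩
    conv_rhs => rw [← bA.sum_repr v, map_sum]
    exact Finset.sum_congr rfl fun i _ => (LinearMap.map_smulₛₗ _ _ _).symm
  have hfin : Finite T := Nat.finite_of_card_ne_zero
    (hcard ▸ pow_ne_zero 2 (Fact.out : p.Prime).ne_zero)
  have hrank : Module.finrank (ZMod p) T = 2 := (W.residualGaloisRepOf p hcard hker).finrank_eq
  let bt : Module.Basis (Fin 2) (ZMod p) T :=
    basisOfTopLeSpanOfCardEqFinrank t
      (fun x _ => by
        obtain ⟨c, rfl⟩ := hspan x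
        exact Submodule.sum_mem _ fun i _ =>
          Submodule.smul_mem _ _ (Submodule.subset_span (Set.mem_range_self i)))
      (by rw [Fintype.card_fin, hrank])
  have hbt : ∀ i, bt i = t i := fun i => by
    simp [bt, coe_basisOfTopLeSpanOfCardEqFinrank]
  let E : (ZMod p ⊗[k] (k ⊗[ℤ_[p]] (curveTate W p).V)) ≃ₗ[ZMod p] T :=
    bp.equiv bt (Equiv.refl _)
  have hE : ∀ v : (curveTate W p).V,
      E ((1 : ZMod p) ⊗ₜ[k] ((1 : k) ⊗ₜ[ℤ_[p]] v)) = curveTateToTorsion W p v := by
    intro v
    have h1 : (1 : ZMod p) ⊗ₜ[k] ((1 : k) ⊗ₜ[ℤ_[p]] v) =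
        ∑ i, PadicInt.toZMod (bA.repr v i) • bp i := by
      conv_lhs => rw [← bA.sum_repr v]
      rw [TensorProduct.tmul_sum, TensorProduct.tmul_sum]
      refine Finset.sum_congr rfl fun i _ => ?_
      rw [show bp i = (1 : ZMod p) ⊗ₜ[k] bk i from Algebra.TensorProduct.basis_apply _ i,
        show bk i = (1 : k) ⊗ₜ[ℤ_[p]] bA i from Algebra.TensorProduct.basis_apply _ i,
        TensorProduct.tmul_smul,
        show bA.repr v i • ((1 : k) ⊗ₜ[ℤ_[p]] bA i) =
          IsLocalRing.residue ℤ_[p] (bA.repr v i) • ((1 : k) ⊗ₜ[ℤ_[p]] bA i) by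
            rw [← IsLocalRing.ResidueField.algebraMap_eq, algebraMap_smul],
        TensorProduct.tmul_smul, ← hψ]
      rw [← algebraMap_smul (ZMod p) (IsLocalRing.residue ℤ_[p] (bA.repr v i))
        ((1 : ZMod p) ⊗ₜ[k] ((1 : k) ⊗ₜ[ℤ_[p]] bA i))]
      rfl
    rw [h1, map_sum]
    conv_rhs => rw [← bA.sum_repr v, map_sum]
    refine Finset.sum_congr rfl fun i _ => ?_
    rw [LinearEquiv.map_smul, LinearMap.map_smulₛₗ]
    congr 1
    rw [Module.Basis.equiv_apply, Equiv.refl_apply, hbt]
  refine ⟨{ toLinearEquiv := E, map_apply := fun σ x => ?_ }⟩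
  show E ((((curveTate W p).ρ σ).baseChange k).baseChange (ZMod p) x) = σ • E x
  refine LinearMap.congr_fun (f := E.toLinearMap.comp ((((curveTate W p).ρ σ).baseChange k).baseChange (ZMod p)))
    (g := (WeierstrassCurve.Affine.Point.galoisRepModuleEnd (K := Qbar) ℚ W p σ).comp
      E.toLinearMap) ?_ x
  refine bp.ext fun i => ?_
  show E ((((curveTate W p).ρ σ).baseChange k).baseChange (ZMod p) (bp i)) = σ • E (bp i)
  rw [show bp i = (1 : ZMod p) ⊗ₜ[k] bk i from Algebra.TensorProduct.basis_apply _ i,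
    show bk i = (1 : k) ⊗ₜ[ℤ_[p]] bA i from Algebra.TensorProduct.basis_apply _ i,
    LinearMap.baseChange_tmul, LinearMap.baseChange_tmul, hE, hE, curveTateToTorsion_rho]

end FermatLib.MLT.Tate
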