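import Fermat.Agent.MLT.Tate.Det
import Fermat.Agent.MLT.Tate.Residual
import Fermat.Agent.MLT.Tate.Frobenius

/-!
# Change of coefficients for local conditions on adic representations
-/

set_option autoImplicit false
set_option linter.style.haveILetI false

noncomputable section

namespace FermatLib.MLT.Tate

open Polynomial
open scoped TensorProduct

local notation "Γℚ" => (AlgebraicClosure ℚ ≃ₐ[ℚ] AlgebraicClosure ℚ)

/-- A ring map out of `ℤ_[p]` into a local ring with residue characteristic `p` is local. -/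
lemma isLocalHom_padicInt {p : ℕ} [Fact p.Prime] {O : Type*} [CommRing O] [IsLocalRing O]
    (hp : (p : O) ∈ IsLocalRing.maximalIdeal O) (φ : ℤ_[p] →+* O) : IsLocalHom φ := by
  refine ⟨fun x hx => ?_⟩
  by_contra hnu
  have hx' : x ∈ IsLocalRing.maximalIdeal ℤ_[p] := hnu
  rw [PadicInt.maximalIdeal_eq_span_p, Ideal.mem_span_singleton] at hx'
  obtain ⟨y, rfl⟩ := hx'
  rw [map_mul, map_natCast] at hx
  exact hp (isUnit_of_mul_isUnit_left hx)

variable {A B : Type} [CommRing A] [IsLocalRing A] [CommRing B] [IsLocalRing B] {φ : A →+* B}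
  (hφ : IsLocalHom φ) {ρ : GaloisRepAdic A}

lemma det_baseChangeAlong (σ : Γℚ) :
    LinearMap.det ((ρ.baseChangeAlong φ hφ).ρ σ) = φ (LinearMap.det (ρ.ρ σ)) := by
  let : Algebra A B := φ.toAlgebra
  show LinearMap.det ((ρ.ρ σ).baseChange B) = _
  rw [LinearMap.det_baseChange]; rfl

lemma detIsCyclotomic_baseChangeAlong {p : ℕ} (h : ρ.DetIsCyclotomic p) :
    (ρ.baseChangeAlong φ hφ).DetIsCyclotomic p := by
  refine ⟨?_, fun n σ a ha => ?_⟩
  · have := map_nonunit φ (p : A) h.1
    rwa [map_natCast] at this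
  · rw [det_baseChangeAlong, ← map_natCast φ a, ← map_sub]
    have := Ideal.mem_map_of_mem φ (h.2 n σ a ha)
    rwa [Ideal.map_span, Set.image_singleton, map_natCast] at this

lemma isUnramifiedAt_baseChangeAlong {q : ℕ} (h : ρ.IsUnramifiedAt q) :
    (ρ.baseChangeAlong φ hφ).IsUnramifiedAt q := fun P hP σ hσ => by
  let : Algebra A B := φ.toAlgebra
  show (ρ.ρ σ).baseChange B = 1
  rw [h P hP σ hσ, LinearMap.baseChange_one]

lemma isUnipotentOnInertiaAt_baseChangeAlong {q : ℕ} (h : ρ.IsUnipotentOnInertiaAt q) :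
    (ρ.baseChangeAlong φ hφ).IsUnipotentOnInertiaAt q := fun P hP σ hσ => by
  rw [FermatLib.Galois.charpoly_baseChangeAlong φ hφ ρ σ, h P hP σ hσ]
  simp

lemma charpoly_baseChangeAlong_of_eq {σ : Γℚ} {a : ℤ} {d : ℕ}
    (h : LinearMap.charpoly (ρ.ρ σ) = X ^ 2 - C (a : A) * X + C (d : A)) :
    LinearMap.charpoly ((ρ.baseChangeAlong φ hφ).ρ σ) = X ^ 2 - C (a : B) * X + C (d : B) := by
  rw [FermatLib.Galois.charpoly_baseChangeAlong φ hφ ρ σ, h]
  simp

/-- The two ways of changing coefficients to the residue field agree. -/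
lemma exists_equiv_baseChange_baseChange {R S k l V : Type*} [CommRing R] [CommRing S] [CommRing k]
    [CommRing l] [AddCommGroup V] [Module R V] [Algebra R S] [Algebra R k] [Algebra R l]
    [Algebra S l] [Algebra k l] [IsScalarTower R S l] [IsScalarTower R k l] :
    ∃ e : l ⊗[S] (S ⊗[R] V) ≃ₗ[l] l ⊗[k] (k ⊗[R] V), ∀ (f : Module.End R V) x,
      e ((f.baseChange S).baseChange l x) = (f.baseChange k).baseChange l (e x) := by
  refine ⟨(TensorProduct.AlgebraTensorModule.cancelBaseChange R S l l V).trans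
    (TensorProduct.AlgebraTensorModule.cancelBaseChange R k l l V).symm, fun f x => ?_⟩
  induction x using TensorProduct.induction_on with
  | zero => simp only [map_zero]
  | add x y hx hy => simp only [map_add, hx, hy]
  | tmul c y =>
    induction y using TensorProduct.induction_on with
    | zero => simp only [TensorProduct.tmul_zero, map_zero]
    | add y z hy hz => simp only [TensorProduct.tmul_add, map_add, hy, hz]
    | tmul b v =>
      simp only [LinearMap.baseChange_tmul, LinearEquiv.trans_apply,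
        TensorProduct.AlgebraTensorModule.cancelBaseChange_tmul,
        TensorProduct.AlgebraTensorModule.cancelBaseChange_symm_tmul]

/-- Reduction commutes with change of coefficients. -/
theorem residual_baseChangeAlong_equiv :
    (ρ.baseChangeAlong φ hφ).residual.IsEquiv
      (ρ.residual.baseChangeAlong (haveI := hφ; IsLocalRing.ResidueField.map φ)) := by
  haveI := hφ
  let iAB : Algebra A B := φ.toAlgebra
  let iAl : Algebra A (IsLocalRing.ResidueField B) :=
    ((IsLocalRing.residue B).comp φ).toAlgebra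
  let ikl : Algebra (IsLocalRing.ResidueField A) (IsLocalRing.ResidueField B) :=
    (IsLocalRing.ResidueField.map φ).toAlgebra
  obtain ⟨e, he⟩ := @exists_equiv_baseChange_baseChange A B (IsLocalRing.ResidueField A)
    (IsLocalRing.ResidueField B) ρ.V _ _ _ _ _ _ iAB _ iAl _ ikl
    (@IsScalarTower.of_algebraMap_eq A B (IsLocalRing.ResidueField B) _ _ _ iAB _ iAl fun _ => rfl)
    (@IsScalarTower.of_algebraMap_eq A (IsLocalRing.ResidueField A) (IsLocalRing.ResidueField B)
      _ _ _ _ ikl iAl fun _ => rfl)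
  exact ⟨⟨e, fun σ x => he (ρ.ρ σ) x⟩⟩

end FermatLib.MLT.Tate
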