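import Fermat.Agent.MLT.Tate.Frobenius
import Fermat.Agent.EC.RedMultGalois
import Mathlib.FieldTheory.IsAlgClosed.AlgebraicClosure

/-!
# Inertia at multiplicative primes on the Tate module
-/

set_option autoImplicit false

noncomputable section

namespace FermatLib.MLT.Tate

open WeierstrassCurve Polynomial
open scoped WeierstrassCurve.Affine

local notation "Qbar" => AlgebraicClosure ℚ
local notation "Γℚ" => (AlgebraicClosure ℚ ≃ₐ[ℚ] AlgebraicClosure ℚ)

variable (W : WeierstrassCurve ℤ) [(W.map (Int.castRingHom ℚ)).IsElliptic] (p : ℕ) [Fact p.Prime]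

/-- `(σ - 1)² = 0` on `T_p E` for `σ` in inertia at a multiplicative prime away from `p`. -/
theorem curveTate_inertia_relation {q : ℕ} (hq : q.Prime) (hqp : q ≠ p) (hΔ : (q : ℤ) ∣ W.Δ)
    (hc₄ : ¬ (q : ℤ) ∣ W.c₄) {A : ValuationSubring Qbar} (hA : A.LiesOverPrime q) {σ : Γℚ}
    (hσ : σ ∈ A.inertiaSubgroupIn ℚ) :
    (curveTate (W.map (Int.castRingHom ℚ)) p).ρ σ * (curveTate (W.map (Int.castRingHom ℚ)) p).ρ σ -
        (2 : ℤ_[p]) • (curveTate (W.map (Int.castRingHom ℚ)) p).ρ σ + (1 : ℤ_[p]) • 1 = 0 := by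
  classical
  refine curveTate_end_ext _ p fun n v => ?_
  have : Algebra.IsAlgebraic ℚ Qbar := AlgebraicClosure.isAlgebraic ℚ
  have hfix := FermatLib.EC.fixesResidues_of_mem_inertia hσ
  have hrel := FermatLib.EC.smul_smul_sub_eq (FermatLib.EC.integralAt_intCurve W A)
    (by rw [FermatLib.EC.res_c₄_intCurve, FermatLib.EC.res_intCast_ne_zero_iff A hq hA]; exact hc₄)
    (by
      by_contra h0
      rw [FermatLib.EC.res_Δ_intCurve] at h0
      exact (FermatLib.EC.res_intCast_ne_zero_iff A hq hA _).mp h0 hΔ)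
    (WeierstrassCurve.isUnit_Δ _).ne_zero hfix hfix
    (FermatLib.EC.res_natCast_ne_zero A hq hA fun hd =>
      hqp ((Nat.prime_dvd_prime_iff_eq hq Fact.out).mp (hq.dvd_of_dvd_pow hd)))
    (pow_smul_curveTateProj (W.map (Int.castRingHom ℚ)) p n v)
  rw [smul_sub, sub_eq_sub_iff_add_eq_add] at hrel
  rw [LinearMap.zero_apply, map_zero, LinearMap.add_apply, LinearMap.sub_apply,
    LinearMap.smul_apply, one_smul, Module.End.mul_apply, Module.End.one_apply, two_smul,
    map_add, map_sub, map_add, curveTateProj_rho, curveTateProj_rho, sub_add_eq_add_sub, hrel,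
    sub_self]

/-- Inertia at a multiplicative prime away from `p` acts unipotently on `T_p E`. -/
theorem isUnipotentOnInertiaAt_curveTate {q : ℕ} (hq : q.Prime) (hqp : q ≠ p)
    (hΔ : (q : ℤ) ∣ W.Δ) (hc₄ : ¬ (q : ℤ) ∣ W.c₄) :
    (curveTate (W.map (Int.castRingHom ℚ)) p).IsUnipotentOnInertiaAt q := fun A hA σ hσ => by
  rw [charpoly_eq_of_quadratic _ σ 2 1
    ((det_curveTate _ p σ).trans (FermatLib.Galois.Attach.cycloChar_inertia p hq hqp hA hσ))
    (curveTate_inertia_relation W p hq hqp hΔ hc₄ hA hσ), map_one, map_ofNat]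
  ring

end FermatLib.MLT.Tate
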