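import Fermat.Agent.MLT.Tate.Curve
import Fermat.Agent.EC.WeilPairing

/-!
# The determinant of the Tate module is the cyclotomic character
-/

set_option autoImplicit false

noncomputable section

namespace FermatLib.MLT.Tate

open WeierstrassCurve FermatLib.Galois.Attach
open scoped WeierstrassCurve.Affine

local notation "Qbar" => AlgebraicClosure ℚ
local notation "Γℚ" => (AlgebraicClosure ℚ ≃ₐ[ℚ] AlgebraicClosure ℚ)

variable (W : WeierstrassCurve ℚ) [W.IsElliptic] (p : ℕ) [Fact p.Prime]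

/-- The determinant of the Galois matrix on `E[p ^ n]`. -/
lemma det_mat_toZModPow (n : ℕ) (σ : Γℚ) (a : ℕ) (hcyc : ∀ μ : Qbar, μ ^ p ^ n = 1 → σ μ = μ ^ a) :
    PadicInt.toZModPow n
        ((tateBasis (rankTwoTorsion_curve W p)).mat (galEnd (W⁄Qbar).Point σ)).det =
      (a : ZMod (p ^ n)) := by
  classical
  have hpp : p.Prime := Fact.out
  set bs := tateBasis (rankTwoTorsion_curve W p) with hbs
  obtain ⟨C, hC⟩ := TorsionBasis.exists_intLift n (bs.mat (galEnd (W⁄Qbar).Point σ))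
  have hspec : ∀ i, σ • bs.e n i = C 0 i • bs.e n 0 + C 1 i • bs.e n 1 := fun i =>
    (bs.mat_spec (galEnd (W⁄Qbar).Point σ) n C hC i).trans (Fin.sum_univ_two _)
  have hn : ((p ^ n : ℕ) : Qbar) ≠ 0 := Nat.cast_ne_zero.mpr (pow_ne_zero n hpp.ne_zero)
  obtain ⟨e, hl, hr, halt, hpow, hgal, hnd⟩ :=
    FermatLib.EC.exists_weilPairing ℚ W (K := Qbar) hn
  have hne : ∀ P Q, e P Q ≠ 0 := fun P Q h0 => by
    have := hpow P Q
    rw [h0, zero_pow (pow_ne_zero n hpp.ne_zero)] at this
    exact zero_ne_one this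
  -- the pairing as an additive bilinear map
  let T := Submodule.torsionBy ℤ (W⁄Qbar).Point ((p ^ n : ℕ) : ℤ)
  let u : T → T → Additive Qbarˣ := fun P Q => Additive.ofMul (Units.mk0 (e P Q) (hne P Q))
  have hul : ∀ P P' Q, u (P + P') Q = u P Q + u P' Q := fun P P' Q =>
    congrArg Additive.ofMul (Units.ext (hl P P' Q))
  have hur : ∀ P Q Q', u P (Q + Q') = u P Q + u P Q' := fun P Q Q' =>
    congrArg Additive.ofMul (Units.ext (hr P Q Q'))
  let f : T →+ T →+ Additive Qbarˣ := AddMonoidHom.mk' (fun P => AddMonoidHom.mk' (u P) (hur P))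
    fun P P' => AddMonoidHom.ext fun Q => hul P P' Q
  have hf : ∀ P Q, f P Q = u P Q := fun _ _ => rfl
  have hfs : ∀ P, f P P = 0 := fun P => congrArg Additive.ofMul (Units.ext (halt P))
  have hmem : ∀ i, bs.e n i ∈ T := fun i => by
    rw [Submodule.mem_torsionBy_iff, natCast_zsmul]; exact bs.torsion n i
  let b : Fin 2 → T := fun i => ⟨bs.e n i, hmem i⟩
  have hb : ∀ i, σ • b i = C 0 i • b 0 + C 1 i • b 1 := fun i => Subtype.ext (hspec i)
  have hskew : f (b 1) (b 0) = -f (b 0) (b 1) := by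
    have h2 := hfs (b 0 + b 1)
    simp only [map_add, AddMonoidHom.add_apply, hfs, zero_add, add_zero] at h2
    exact eq_neg_of_add_eq_zero_left h2
  -- Galois acts on the pairing by `a`
  have hσ : f (σ • b 0) (σ • b 1) = (a : ℤ) • f (b 0) (b 1) := by
    rw [natCast_zsmul]
    refine congrArg Additive.ofMul (Units.ext ?_)
    show e (σ • b 0) (σ • b 1) = _
    rw [hgal, hcyc _ (hpow _ _)]
    rfl
  have hdet : (C 0 0 * C 1 1 - C 1 0 * C 0 1 - a) • f (b 0) (b 1) = 0 := by
    rw [hb, hb] at hσ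
    simp only [map_add, AddMonoidHom.add_apply, map_zsmul,
      AddMonoidHom.zsmul_apply, hfs, hskew, smul_zero, smul_smul, zero_add,
      add_zero] at hσ
    linear_combination (norm := module) hσ
  have hord : ∀ k : ℤ, k • f (b 0) (b 1) = 0 → (p : ℤ) ^ n ∣ k := fun k hk => by
    have hz : k • b 1 = 0 := by
      refine hnd _ fun P => ?_
      have hP0 : f P (k • b 1) = 0 := by
        obtain ⟨c, hc⟩ := bs.span n P.1 (by
          rw [← natCast_zsmul]; exact (Submodule.mem_torsionBy_iff _ _).mp P.2)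
        have hP : P = c 0 • b 0 + c 1 • b 1 := Subtype.ext (hc.symm.trans (Fin.sum_univ_two _))
        rw [hP]
        simp only [map_add, AddMonoidHom.add_apply, map_zsmul,
          AddMonoidHom.zsmul_apply, hfs, smul_zero, add_zero]
        rw [smul_comm, hk, smul_zero]
      exact congrArg Units.val hP0
    have := bs.indep n ![0, k] (by
      rw [Fin.sum_univ_two]
      simpa using congrArg Subtype.val hz) 1
    simpa using this
  have h3 := hord _ hdet
  rw [← Nat.cast_pow, ← ZMod.intCast_zmod_eq_zero_iff_dvd] at h3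
  push_cast at h3
  rw [Matrix.det_fin_two, map_sub, map_mul, map_mul, ← hC, ← hC, ← hC, ← hC]
  linear_combination h3

/-- `det T_p E` agrees modulo `p ^ n` with any exponent of `σ` on `p ^ n`th roots of unity. -/
lemma det_curveTate_toZModPow (n : ℕ) (σ : Γℚ) (a : ℕ)
    (hcyc : ∀ μ : Qbar, μ ^ p ^ n = 1 → σ μ = μ ^ a) :
    PadicInt.toZModPow n (LinearMap.det ((curveTate W p).ρ σ)) = (a : ZMod (p ^ n)) := by
  rw [← det_mat_toZModPow W p n σ a hcyc]
  congr 1
  exact LinearMap.det_toLin' _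

/-- `det T_p E` is the cyclotomic character. -/
theorem det_curveTate (σ : Γℚ) :
    LinearMap.det ((curveTate W p).ρ σ) = cycloChar p σ := by
  have hpp : p.Prime := Fact.out
  refine PadicInt.ext_of_toZModPow.mp fun n => ?_
  have : NeZero (p ^ n) := ⟨pow_ne_zero n hpp.ne_zero⟩
  obtain ⟨ζ, hζ⟩ := exists_primitiveRoot p n
  obtain ⟨a, -, ha⟩ := hζ.eq_pow_of_pow_eq_one
    (show σ ζ ^ p ^ n = 1 by rw [← map_pow, hζ.pow_eq_one, map_one])
  have hcyc : ∀ μ : Qbar, μ ^ p ^ n = 1 → σ μ = μ ^ a := fun μ hμ => by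
    obtain ⟨k, -, rfl⟩ := hζ.eq_pow_of_pow_eq_one hμ
    rw [map_pow, ← ha, ← pow_mul, ← pow_mul, mul_comm]
  rw [det_curveTate_toZModPow W p n σ a hcyc, cycloChar_toZModPow_eq p hζ ha.symm]

theorem detIsCyclotomic_curveTate : (curveTate W p).DetIsCyclotomic p := by
  refine ⟨by simp [PadicInt.maximalIdeal_eq_span_p], fun n σ a ha => ?_⟩
  rw [Nat.cast_pow, ← PadicInt.ker_toZModPow, RingHom.mem_ker, map_sub,
    det_curveTate_toZModPow W p n σ a ha, map_natCast, sub_self]

end FermatLib.MLT.Tate
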