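import Fermat.Agent.Galois.AttachTate
import Fermat.Agent.Galois.AttachCyclotomic
import Fermat.Prelude.Def_GaloisRep_Adic
import Fermat.Prelude.Def_GaloisRep_LocalConditions

/-!
# The Tate module of a Galois module with rank two `p`-power torsion

`tateAdic h : GaloisRepAdic ℤ_[p]` together with the projections `tateProj h n` onto the
`p ^ n`-torsion: additive, equivariant, surjective, with kernel `p ^ n`.
-/

set_option autoImplicit false

noncomputable section

namespace FermatLib.MLT.Tate

open FermatLib.Galois.Attach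

local notation "Γℚ" => (AlgebraicClosure ℚ ≃ₐ[ℚ] AlgebraicClosure ℚ)

variable {p : ℕ} [Fact p.Prime] {J : Type*} [AddCommGroup J] [DistribMulAction Γℚ J]

variable (p J) in
/-- The `p`-power torsion of `J` has rank two and finite Galois level at every stage. -/
structure RankTwoTorsion : Prop where
  card : ∀ n, Nat.card {x : J // p ^ n • x = 0} = p ^ (n * 2)
  finite_level : ∀ n, ∃ F : IntermediateField ℚ (AlgebraicClosure ℚ), FiniteDimensional ℚ F ∧
    ∀ σ : Γℚ, (∀ y ∈ F, σ y = y) → ∀ x : J, p ^ n • x = 0 → σ • x = x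

variable (J) in
/-- The Galois action as endomorphisms. -/
def galEnd : Γℚ →* AddMonoid.End J where
  toFun g := DistribSMul.toAddMonoidHom J g
  map_one' := AddMonoidHom.ext fun x => one_smul Γℚ x
  map_mul' g h := AddMonoidHom.ext fun x => mul_smul g h x

variable (h : RankTwoTorsion p J)

/-- A chosen compatible family of bases of the torsion. -/
def tateBasis : TorsionBasis J p 2 := (exists_torsionBasis h.card).some

/-- The Galois action on the coordinates of the Tate module. -/
def tateRho : Γℚ →* Module.End ℤ_[p] (Fin 2 → ℤ_[p]) :=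
  (Matrix.toLinAlgEquiv' (R := ℤ_[p]) (n := Fin 2)).toAlgHom.toRingHom.toMonoidHom.comp
    ((tateBasis h).matHom.toMonoidHom.comp (galEnd J))

lemma tateRho_apply (σ : Γℚ) (v : Fin 2 → ℤ_[p]) :
    tateRho h σ v = Matrix.mulVec ((tateBasis h).mat (galEnd J σ)) v := rfl

/-- Projection to the `p ^ n`-torsion. -/
def tateProj (n : ℕ) : (Fin 2 → ℤ_[p]) →+ J :=
  AddMonoidHom.mk' (fun v => ∑ i, ((PadicInt.toZModPow n (v i)).val : ℤ) • (tateBasis h).e n i)
    fun v w => by
      rw [← Finset.sum_add_distrib]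
      simp only [← add_smul]
      refine ((tateBasis h).sum_eq_iff n _ _).mpr fun i => ?_
      simp

lemma tateProj_apply_eq {n : ℕ} {v : Fin 2 → ℤ_[p]} {c : Fin 2 → ℤ}
    (hc : ∀ i, (c i : ZMod (p ^ n)) = PadicInt.toZModPow n (v i)) :
    tateProj h n v = ∑ i, c i • (tateBasis h).e n i := by
  change ∑ i, ((PadicInt.toZModPow n (v i)).val : ℤ) • (tateBasis h).e n i = _
  exact ((tateBasis h).sum_eq_iff n _ _).mpr fun i => by simp [hc i]

lemma pow_smul_tateProj (n : ℕ) (v : Fin 2 → ℤ_[p]) : p ^ n • tateProj h n v = 0 := by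
  change p ^ n • (∑ i, ((PadicInt.toZModPow n (v i)).val : ℤ) • (tateBasis h).e n i) = 0
  rw [Finset.smul_sum]
  refine Finset.sum_eq_zero fun i _ => ?_
  rw [smul_comm, (tateBasis h).torsion, smul_zero]

lemma smul_tateProj_succ (n : ℕ) (v : Fin 2 → ℤ_[p]) :
    p • tateProj h (n + 1) v = tateProj h n v := by
  refine Eq.trans ?_ (tateProj_apply_eq h (n := n) (v := v)
    (c := fun i => ((PadicInt.toZModPow (n + 1) (v i)).val : ℤ)) fun i => ?_).symm
  · change p • (∑ i, ((PadicInt.toZModPow (n + 1) (v i)).val : ℤ) • (tateBasis h).e (n + 1) i) = _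
    rw [Finset.smul_sum]
    exact Finset.sum_congr rfl fun i _ => by rw [smul_comm, (tateBasis h).compat]
  · rw [Int.cast_natCast, ← PadicInt.cast_toZModPow n (n + 1) (by lia) (v i), ← ZMod.natCast_val]

lemma exists_tateProj_eq {n : ℕ} {x : J} (hx : p ^ n • x = 0) :
    ∃ v, tateProj h n v = x := by
  obtain ⟨c, hc⟩ := (tateBasis h).span n x hx
  exact ⟨fun i => (c i : ℤ_[p]), (tateProj_apply_eq h fun i => (map_intCast _ _).symm).trans hc⟩

lemma tateProj_eq_zero_iff {n : ℕ} {v : Fin 2 → ℤ_[p]} :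
    tateProj h n v = 0 ↔ ∀ i, PadicInt.toZModPow n (v i) = 0 := by
  rw [show (0 : J) = ∑ i, (0 : ℤ) • (tateBasis h).e n i by simp,
    tateProj_apply_eq h (c := fun i => ((PadicInt.toZModPow n (v i)).val : ℤ))
      fun i => by simp]
  rw [(tateBasis h).sum_eq_iff]
  simp

lemma tateProj_eq_zero_iff_mem {n : ℕ} {v : Fin 2 → ℤ_[p]} :
    tateProj h n v = 0 ↔
      v ∈ IsLocalRing.maximalIdeal ℤ_[p] ^ n • (⊤ : Submodule ℤ_[p] (Fin 2 → ℤ_[p])) := by
  rw [tateProj_eq_zero_iff, PadicInt.maximalIdeal_eq_span_p, Ideal.span_singleton_pow,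
    Submodule.ideal_span_singleton_smul, Submodule.mem_smul_pointwise_iff_exists]
  simp only [← RingHom.mem_ker, PadicInt.ker_toZModPow, Ideal.mem_span_singleton]
  constructor
  · intro hv
    choose w hw using hv
    exact ⟨w, Submodule.mem_top, funext fun i => (hw i).symm⟩
  · rintro ⟨w, -, rfl⟩ i
    exact ⟨w i, rfl⟩

/-- Two elements of the Tate module with the same projections are equal. -/
lemma eq_of_tateProj_eq {v w : Fin 2 → ℤ_[p]} (hvw : ∀ n, tateProj h n v = tateProj h n w) :
    v = w := by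
  funext i
  refine PadicInt.ext_of_toZModPow.mp fun n => ?_
  rw [← sub_eq_zero, ← map_sub]
  exact (tateProj_eq_zero_iff h).mp (by rw [map_sub, hvw n, sub_self] : tateProj h n (v - w) = 0) i

lemma tateProj_intCast_smul (n : ℕ) (a : ℤ) (v : Fin 2 → ℤ_[p]) :
    tateProj h n ((a : ℤ_[p]) • v) = a • tateProj h n v := by
  rw [Int.cast_smul_eq_zsmul, map_zsmul]

lemma tateProj_smul_of_toZModPow_eq {n : ℕ} {c : ℤ_[p]} {a : ℤ}
    (hca : (a : ZMod (p ^ n)) = PadicInt.toZModPow n c) (v : Fin 2 → ℤ_[p]) :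
    tateProj h n (c • v) = a • tateProj h n v := by
  rw [← tateProj_intCast_smul, ← sub_eq_zero, ← map_sub, ← sub_smul, tateProj_eq_zero_iff]
  intro i
  rw [Pi.smul_apply, smul_eq_mul, map_mul, map_sub, map_intCast, hca, sub_self, zero_mul]

/-- Projections are Galois equivariant. -/
lemma tateProj_rho (σ : Γℚ) (n : ℕ) (v : Fin 2 → ℤ_[p]) :
    tateProj h n (tateRho h σ v) = σ • tateProj h n v := by
  obtain ⟨C, hC⟩ := TorsionBasis.exists_intLift n ((tateBasis h).mat (galEnd J σ))
  have hs := (tateBasis h).mat_spec (galEnd J σ) n C hC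
  rw [tateProj_apply_eq h (v := tateRho h σ v)
    (c := fun j => ∑ i, C j i * ((PadicInt.toZModPow n (v i)).val : ℤ)) fun j => by
      rw [tateRho_apply, Int.cast_sum, Matrix.mulVec, dotProduct, map_sum]
      exact Finset.sum_congr rfl fun i _ => by
        rw [Int.cast_mul, hC, map_mul, Int.cast_natCast, ZMod.natCast_zmod_val]]
  change _ = galEnd J σ (∑ i, ((PadicInt.toZModPow n (v i)).val : ℤ) • (tateBasis h).e n i)
  simp only [map_sum, map_zsmul, hs, Finset.smul_sum, smul_smul, Finset.sum_smul, mul_comm]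
  rw [Finset.sum_comm]

/-- The Tate module as an adic Galois representation. -/
def tateAdic : GaloisRepAdic ℤ_[p] where
  V := Fin 2 → ℤ_[p]
  finrank_eq := Module.finrank_fin_fun ℤ_[p]
  ρ := tateRho h
  isAdicContinuous n := by
    obtain ⟨F, hF, hfix⟩ := h.finite_level n
    refine ⟨F, hF, fun σ hσ v => (tateProj_eq_zero_iff_mem h).mp ?_⟩
    rw [map_sub, tateProj_rho, hfix σ hσ _ (pow_smul_tateProj h n v), sub_self]

/-- An endomorphism of the Tate module is determined by the projections. -/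
lemma end_ext {f g : Module.End ℤ_[p] (Fin 2 → ℤ_[p])}
    (hfg : ∀ n v, tateProj h n (f v) = tateProj h n (g v)) : f = g :=
  LinearMap.ext fun v => eq_of_tateProj_eq h fun n => hfg n v

/-- A compatible system of torsion points comes from the Tate module. -/
lemma exists_tateProj_forall_eq {x : ℕ → J} (h0 : ∀ n, p ^ n • x n = 0)
    (hx : ∀ n, p • x (n + 1) = x n) : ∃ v, ∀ n, tateProj h n v = x n := by
  choose c hc using fun n => (tateBasis h).span n (x n) (h0 n)
  have hdvd : ∀ i n, (p : ℤ) ^ n ∣ c (n + 1) i - c n i := by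
    intro i n
    have h1 : ∑ j, c n j • (tateBasis h).e n j = ∑ j, c (n + 1) j • (tateBasis h).e n j := by
      rw [hc, ← hx n, ← hc, Finset.smul_sum]
      exact Finset.sum_congr rfl fun j _ => by rw [smul_comm, (tateBasis h).compat]
    have h2 := ((tateBasis h).sum_eq_iff n _ _).mp h1 i
    rw [ZMod.intCast_eq_intCast_iff_dvd_sub, Nat.cast_pow] at h2
    exact h2
  choose v hv using fun i => exists_padicInt_of_compat (fun n => c n i) (hdvd i)
  exact ⟨v, fun n => (tateProj_apply_eq h fun i => (hv i n).symm).trans (hc n)⟩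

/-- An element of Galois fixing all `p`-power torsion acts trivially on the Tate module. -/
lemma tateRho_eq_one {σ : Γℚ} (hσ : ∀ (n : ℕ) (x : J), p ^ n • x = 0 → σ • x = x) :
    tateRho h σ = 1 :=
  end_ext h fun n v => by
    rw [tateProj_rho, hσ n _ (pow_smul_tateProj h n v), Module.End.one_apply]

lemma tateAdic_isUnramifiedAt {q : ℕ}
    (hq : ∀ A : ValuationSubring (AlgebraicClosure ℚ), A.LiesOverPrime q →
      ∀ σ ∈ A.inertiaSubgroupIn ℚ, ∀ (n : ℕ) (x : J), p ^ n • x = 0 → σ • x = x) :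
    (tateAdic h).IsUnramifiedAt q :=
  fun A hA σ hσ => tateRho_eq_one h (hq A hA σ hσ)

end FermatLib.MLT.Tate
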