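import Fermat.Agent.MLT.Tate.Det
import Fermat.Agent.MLT.Tate.Residual
import Fermat.Agent.MLT.Tate.Frobenius
import Fermat.Agent.MLT.Tate.Unipotent
import Fermat.Agent.MLT.Tate.BaseChange

/-!
# Determinant, residual representation, Frobenius and inertia on Tate modules
-/
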